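import Mathlib
import Fermat.Agent.LT.A2.H54.LocFinSpec
import Fermat.Agent.LT.T1.H849.ScaleFin

/-!
# Row LT, tower A2, leaf A2.03.1.1.06.02 `LF54.LeafCov` (helper833) -- OFF-MAIN

Spec bytes: `A2/H54/LocFinSpec.lean` = helper54@26071c838 (sha256 8ccd9c5c), its closure
(`A2/H467/{DataSpec,WeilExSpec}`, `A2/{Kernel,Spec,Theta,WeilLocal}`, ...) byte-identical;
assets: `T1/H849/ScaleFin.lean` (helper849@7272d0b01, sha256 e574eaeb: the module of `K_v`,
`distribHaarChar K_v y = ‖y‖`) and `H11/{LC,SC}.lean` (helper11: `K_v` is locally compact and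
second countable), byte-identical copies.

PROVED here: `leafCov833 : LF54.LeafCov`, VERBATIM: for a finite place `v` of a number field, a
Haar measure `μ` of `K_v` (Borel), an invertible matrix `m` and a Schwartz--Bruhat function `f`
on `K_v²`:  `∫ f(m y) dy = ‖det m‖⁻¹ ∫ f(y) dy`.

Proof: the image of `μ × μ` under `y ↦ m y` is `‖det m‖⁻¹ (μ × μ)`
(`map_actL833`).  By `Matrix.diagonal_transvection_induction_of_det_ne_zero` it is enough to
treat products (composition of the images), diagonal matrices (`Measure.map_prod_map` and the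
module formula in each variable) and transvections (a skew product of translations,
`MeasurePreserving.skew_product`; the upper transvection is conjugate to the lower one by the
swap).  Only the continuity of `f` is used.
-/

set_option autoImplicit false

open IsDedekindDomain NumberField MeasureTheory MeasureTheory.Measure
open scoped NNReal ENNReal Pointwise

noncomputable section

namespace Fermat.Agent.LT.A2.H833

open Fermat.Agent.LT.A2 Fermat.Agent.LT.A2.WX467 Fermat.Agent.LT.A2.LF54
open Fermat.Agent.LT.H11.LC Fermat.Agent.LT.H11.SC Fermat.Agent.LT.T1.H849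

section General

variable {k : Type} [NormedField k]

theorem continuous_actL833 (m : Matrix (Fin 2) (Fin 2) k) : Continuous (actL m) := by
  unfold actL
  fun_prop

theorem actL_mul833 (A B : Matrix (Fin 2) (Fin 2) k) (y : k × k) :
    actL (A * B) y = actL A (actL B y) := by
  simp only [actL, Matrix.mul_apply, Fin.sum_univ_two]
  refine Prod.ext ?_ ?_ <;> simp only <;> ring

variable [MeasurableSpace k] [BorelSpace k] [SecondCountableTopology k]

theorem measurable_actL833 (m : Matrix (Fin 2) (Fin 2) k) : Measurable (actL m) :=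
  (continuous_actL833 m).measurable

/-- The lower shear preserves the product measure. -/
theorem map_shear833 (μ : Measure k) [SFinite μ] [μ.IsAddLeftInvariant] (c : k) :
    Measure.map (fun p : k × k => (p.1, c * p.1 + p.2)) (μ.prod μ) = μ.prod μ := by
  have hgm : Measurable (Function.uncurry fun x y : k => c * x + y) := by
    have : Continuous (Function.uncurry fun x y : k => c * x + y) := by
      unfold Function.uncurry
      fun_prop
    exact this.measurable
  have h := (MeasurePreserving.id μ).skew_product (μc := μ) (μd := μ)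
    (g := fun x y : k => c * x + y) hgm
    (Filter.Eventually.of_forall fun x => map_add_left_eq_self μ (c * x))
  exact h.map_eq

/-- **The image of `μ × μ` under an invertible matrix.** -/
theorem map_actL833 (μ : Measure k) [SFinite μ] [μ.IsAddLeftInvariant]
    (hs : ∀ a : k, a ≠ 0 → Measure.map (fun y => a * y) μ = ENNReal.ofReal ‖a‖⁻¹ • μ)
    (m : Matrix (Fin 2) (Fin 2) k) (hm : m.det ≠ 0) :
    Measure.map (actL m) (μ.prod μ) = ENNReal.ofReal ‖m.det‖⁻¹ • (μ.prod μ) := by
  refine Matrix.diagonal_transvection_induction_of_det_ne_zero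
    (fun m => Measure.map (actL m) (μ.prod μ) = ENNReal.ofReal ‖m.det‖⁻¹ • (μ.prod μ))
    m hm ?_ ?_ ?_
  · intro D hD
    have hD' : D 0 * D 1 ≠ 0 := by
      simpa [Matrix.det_diagonal, Fin.prod_univ_two] using hD
    have h0 : D 0 ≠ 0 := left_ne_zero_of_mul hD'
    have h1 : D 1 ≠ 0 := right_ne_zero_of_mul hD'
    have e : actL (Matrix.diagonal D) = Prod.map (fun y => D 0 * y) (fun y => D 1 * y) := by
      funext y
      refine Prod.ext ?_ ?_ <;> simp [actL, Matrix.diagonal]
    show Measure.map (actL (Matrix.diagonal D)) (μ.prod μ)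
      = ENNReal.ofReal ‖(Matrix.diagonal D).det‖⁻¹ • (μ.prod μ)
    rw [e, ← Measure.map_prod_map μ μ (measurable_const_mul _) (measurable_const_mul _),
      hs _ h0, hs _ h1, Measure.prod_smul_left, Measure.prod_smul_right, smul_smul,
      Matrix.det_diagonal, Fin.prod_univ_two, norm_mul, mul_inv,
      ENNReal.ofReal_mul (by positivity)]
  · intro t
    show Measure.map (actL t.toMatrix) (μ.prod μ)
      = ENNReal.ofReal ‖t.toMatrix.det‖⁻¹ • (μ.prod μ)
    rw [Matrix.TransvectionStruct.det, norm_one, inv_one, ENNReal.ofReal_one, one_smul]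
    obtain ⟨i, j, hij, c⟩ := t
    fin_cases i <;> fin_cases j
    · exact absurd rfl hij
    · have e : actL (Matrix.TransvectionStruct.toMatrix ⟨(0 : Fin 2), 1, hij, c⟩)
          = Prod.swap ∘ (fun p : k × k => (p.1, c * p.1 + p.2)) ∘ Prod.swap := by
        funext y
        simp [actL, Matrix.TransvectionStruct.toMatrix, Matrix.transvection, Matrix.single,
          add_comm]
      have hm1 : Measurable (fun p : k × k => (p.1, c * p.1 + p.2)) := by
        have : Continuous (fun p : k × k => (p.1, c * p.1 + p.2)) := by fun_prop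
        exact this.measurable
      show Measure.map (actL (Matrix.TransvectionStruct.toMatrix ⟨(0 : Fin 2), 1, hij, c⟩))
        (μ.prod μ) = μ.prod μ
      rw [e, ← Measure.map_map measurable_swap (hm1.comp measurable_swap),
        ← Measure.map_map hm1 measurable_swap, Measure.prod_swap, map_shear833,
        Measure.prod_swap]
    · have e : actL (Matrix.TransvectionStruct.toMatrix ⟨(1 : Fin 2), 0, hij, c⟩)
          = (fun p : k × k => (p.1, c * p.1 + p.2)) := by
        funext y
        simp [actL, Matrix.TransvectionStruct.toMatrix, Matrix.transvection, Matrix.single]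
      show Measure.map (actL (Matrix.TransvectionStruct.toMatrix ⟨(1 : Fin 2), 0, hij, c⟩))
        (μ.prod μ) = μ.prod μ
      rw [e, map_shear833]
    · exact absurd rfl hij
  · intro A B hA hB PA PB
    have e : actL (A * B) = actL A ∘ actL B := funext (actL_mul833 A B)
    show Measure.map (actL (A * B)) (μ.prod μ) = ENNReal.ofReal ‖(A * B).det‖⁻¹ • (μ.prod μ)
    rw [e, ← Measure.map_map (measurable_actL833 A) (measurable_actL833 B), PB,
      Measure.map_smul, PA, smul_smul, Matrix.det_mul, norm_mul, mul_inv,
      ENNReal.ofReal_mul (by positivity), mul_comm]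

end General

/-! ## The leaf -/

/-- **A2.03.1.1.06.02 `LF54.LeafCov`**, VERBATIM. -/
theorem leafCov833 : LeafCov := by
  intro K _ _ v μ hμ m hm f hf
  let _ : MeasurableSpace (v.adicCompletion K) := borel (v.adicCompletion K)
  have : BorelSpace (v.adicCompletion K) := ⟨rfl⟩
  have : LocallyCompactSpace (v.adicCompletion K) := locallyCompactSpace_adicCompletion_h11 K v
  have : SecondCountableTopology (v.adicCompletion K) :=
    secondCountableTopology_adicCompletion_h11 K v
  obtain ⟨hinv, hcpt, hpos⟩ := hμ
  have : μ.IsAddLeftInvariant := ⟨fun x => by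
    ext S hS
    rw [Measure.map_apply (measurable_const_add x) hS]
    have e : (fun y => x + y) ⁻¹' S = (fun y => -x + y) '' S := by
      ext y
      constructor
      · intro h
        exact ⟨x + y, h, by ring⟩
      · rintro ⟨z, hz, rfl⟩
        show x + (-x + z) ∈ S
        rw [add_neg_cancel_left]
        exact hz
    rw [e, hinv]⟩
  have : IsFiniteMeasureOnCompacts μ := ⟨fun C hC => hcpt C hC⟩
  have : μ.IsOpenPosMeasure := ⟨fun U hU hne => (hpos U hU hne).ne'⟩
  have : μ.IsAddHaarMeasure := {}
  have hs : ∀ a : v.adicCompletion K, a ≠ 0 →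
      Measure.map (fun y => a * y) μ = ENNReal.ofReal ‖a‖⁻¹ • μ := by
    intro a ha
    ext S hS
    rw [Measure.map_apply (measurable_const_mul a) hS, Measure.smul_apply]
    have e : (fun y => a * y) ⁻¹' S = (Units.mk0 a ha)⁻¹ • S := by
      rw [← Set.preimage_smul]
      rfl
    rw [e, ← distribHaarChar_mul μ, distribHaarChar_adicCompletion849, smul_eq_mul]
    congr 1
    rw [Units.val_inv_eq_inv_val, Units.val_mk0, ← enorm_eq_nnnorm, ← ofReal_norm_eq_enorm,
      norm_inv]
  have key := map_actL833 μ hs m hm
  show ∫ y, f (actL m y) ∂(μ.prod μ) = ((‖m.det‖⁻¹ : ℝ) : ℂ) * ∫ y, f y ∂(μ.prod μ)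
  rw [← integral_map (measurable_actL833 m).aemeasurable
    hf.1.continuous.aestronglyMeasurable, key, integral_smul_measure,
    ENNReal.toReal_ofReal (by positivity), Complex.real_smul]

end Fermat.Agent.LT.A2.H833

end
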