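import Fermat.Agent.LT.A2.H254.IntSpec

/-!
# Row LT, tower A2, sub-leaf A2.03.8.5.6 `H254.TorGroupC254` -- helper833, OFF-MAIN

`torGroupC833 : H254.TorGroupC254` VERBATIM against `LT/A2/H254/IntSpec.lean`
(helper254@ddb43b08e, sha256 e654c419, byte-identical copy with its import closure).

`T¹(𝔸_K)` is closed under products and inverses:
`torMat(a,b) torMat(c,d) = torMat(ac - n bd, ad + bc + t bd)` (`torMat_mul833`), the inverse of an
element of determinant `1` is its adjugate, and `adjugate (torMat(a,b)) = torMat(a + t b, -b)`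
(`torMat_adjugate833`); the determinant is multiplicative.
-/

set_option autoImplicit false

open IsDedekindDomain NumberField AutomorphicForm MeasureTheory
open scoped MatrixGroups

noncomputable section

namespace Fermat.Agent.LT.A2.H833

open Fermat.Agent.LT.H556 Fermat.Agent.LT.H556.A0
open Fermat.Agent.LT.A2

/-- `(a + b ω)(c + d ω) = (ac - n bd) + (ad + bc + t bd) ω` for `ω² = t ω - n`. -/
theorem torMat_mul833 {R : Type*} [CommRing R] (t n a b c d : R) :
    torMat t n a b * torMat t n c d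
      = torMat t n (a * c - n * (b * d)) (a * d + b * c + t * (b * d)) := by
  unfold torMat
  ext i j
  fin_cases i <;> fin_cases j <;> simp [Matrix.mul_apply, Fin.sum_univ_two] <;> ring

/-- The adjugate of `torMat(a, b)` is `torMat(a + t b, -b)` (the conjugate of `a + b ω`). -/
theorem torMat_adjugate833 {R : Type*} [CommRing R] (t n a b : R) :
    (torMat t n a b).adjugate = torMat t n (a + t * b) (-b) := by
  unfold torMat
  rw [Matrix.adjugate_fin_two_of]
  ext i j
  fin_cases i <;> fin_cases j <;> simp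

variable {K : Type} [Field K] [NumberField K]

theorem inTorus_mul833 (t n : K) {a b : G K} (ha : InTorus t n a) (hb : InTorus t n b) :
    InTorus t n (a * b) := by
  obtain ⟨a₁, a₂, ha⟩ := ha
  obtain ⟨b₁, b₂, hb⟩ := hb
  refine ⟨a₁ * b₁ - algebraMap K (Adl K) n * (a₂ * b₂),
    a₁ * b₂ + a₂ * b₁ + algebraMap K (Adl K) t * (a₂ * b₂), ?_⟩
  rw [Units.val_mul, ha, hb, torMat_mul833]

/-- The inverse of an element of determinant `1` is its adjugate. -/
theorem inv_val_of_det_one833 {a : G K} (ha : Matrix.GeneralLinearGroup.det a = 1) :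
    ((a⁻¹ : G K) : Matrix (Fin 2) (Fin 2) (Adl K))
      = (a : Matrix (Fin 2) (Fin 2) (Adl K)).adjugate := by
  have hdet : Matrix.det (a : Matrix (Fin 2) (Fin 2) (Adl K)) = 1 := by
    rw [← Matrix.GeneralLinearGroup.val_det_apply, ha, Units.val_one]
  have h1 : (a : Matrix (Fin 2) (Fin 2) (Adl K)).adjugate * (a : Matrix (Fin 2) (Fin 2) (Adl K))
      = 1 := by
    rw [Matrix.adjugate_mul, hdet, one_smul]
  have e : (a : Matrix (Fin 2) (Fin 2) (Adl K)) * ((a⁻¹ : G K) : Matrix (Fin 2) (Fin 2) (Adl K))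
      = 1 := by
    rw [← Units.val_mul, mul_inv_cancel, Units.val_one]
  calc ((a⁻¹ : G K) : Matrix (Fin 2) (Fin 2) (Adl K))
      = ((a : Matrix (Fin 2) (Fin 2) (Adl K)).adjugate * (a : Matrix (Fin 2) (Fin 2) (Adl K)))
          * ((a⁻¹ : G K) : Matrix (Fin 2) (Fin 2) (Adl K)) := by rw [h1, one_mul]
    _ = (a : Matrix (Fin 2) (Fin 2) (Adl K)).adjugate := by rw [mul_assoc, e, mul_one]

theorem inTorus_inv833 (t n : K) {a : G K} (ha : InTorus1 t n a) : InTorus t n a⁻¹ := by
  obtain ⟨⟨a₁, a₂, hval⟩, hdet⟩ := ha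
  refine ⟨a₁ + algebraMap K (Adl K) t * a₂, -a₂, ?_⟩
  rw [inv_val_of_det_one833 hdet, hval, torMat_adjugate833]

/-- **A2.03.8.5.6 TOR-GROUP** (registry row 1232), VERBATIM. -/
theorem torGroupC833 : H254.TorGroupC254 := by
  intro K _ _ t n
  refine ⟨fun a b ha hb => ⟨inTorus_mul833 t n ha.1 hb.1, ?_⟩,
    fun a ha => ⟨inTorus_inv833 t n ha, ?_⟩⟩
  · rw [map_mul, ha.2, hb.2, one_mul]
  · rw [map_inv, ha.2, inv_one]

/-- Type check against the frozen Prop. -/
example : Fermat.Agent.LT.A2.H254.TorGroupC254 := torGroupC833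

end Fermat.Agent.LT.A2.H833

end
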